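import Mathlib
import Fermat.Prelude.Def_FLTPrelim_Modularity

/-!
# S52 [MODEL], design-neutral part (helper5)

* `exists_curve_of_c` : changing `a₄, a₆` of an integral Weierstrass curve by multiples of `6`
  to prescribe `c₄, c₆` in the congruence class of the old ones modulo `10368`.
* `exists_model_of` : the semistable model from congruences + a coprimality statement at the primes
  not dividing `30 Δ`.
* `exists_tate_param` : over an algebraically closed field of characteristic `≠ 2, 3, 5` every pair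
  `(c₄, c₆)` with `c₄³ ≠ c₆²` is `(u⁴ T4(c,1), u⁶ T6(c,1))` (Tate normal form of a point of order 5).
* `T4_T6_eq_zero` : `T4 n m = 0 ∧ T6 n m = 0 → n = 0 ∧ m = 0`.
* `no_common_zero` : the abstract coprimality statement for a family with a Tate presentation.
-/

set_option autoImplicit false

namespace Fermat.Agent.S52.Model

open WeierstrassCurve

/-! ## Prescribing `c₄`, `c₆` -/

theorem exists_curve_of_c (W : WeierstrassCurve ℤ) (C4 C6 : ℤ)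
    (h4 : (10368 : ℤ) ∣ C4 - W.c₄) (h6 : (10368 : ℤ) ∣ C6 - W.c₆) :
    ∃ W' : WeierstrassCurve ℤ, W'.a₁ = W.a₁ ∧ W'.a₂ = W.a₂ ∧ W'.a₃ = W.a₃ ∧
      (6 : ℤ) ∣ W'.a₄ - W.a₄ ∧ (6 : ℤ) ∣ W'.a₆ - W.a₆ ∧ W'.c₄ = C4 ∧ W'.c₆ = C6 := by
  obtain ⟨m4, hm4⟩ := h4
  obtain ⟨m6, hm6⟩ := h6
  refine ⟨⟨W.a₁, W.a₂, W.a₃, W.a₄ - 216 * m4, W.a₆ - 12 * m6 - 18 * W.b₂ * m4⟩,
    rfl, rfl, rfl, ⟨-36 * m4, by ring⟩, ⟨-2 * m6 - 3 * W.b₂ * m4, by ring⟩, ?_, ?_⟩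
  · have : C4 = W.c₄ + 10368 * m4 := by linarith
    rw [this]
    simp only [WeierstrassCurve.c₄, WeierstrassCurve.b₂, WeierstrassCurve.b₄]
    ring
  · have : C6 = W.c₆ + 10368 * m6 := by linarith
    rw [this]
    simp only [WeierstrassCurve.c₆, WeierstrassCurve.b₂, WeierstrassCurve.b₄,
      WeierstrassCurve.b₆]
    ring

/-- Coefficientwise congruence mod `6` gives equal reductions mod `2` and mod `3`. -/
theorem reductionMod_eq_of_congr {W W' : WeierstrassCurve ℤ} (h1 : W'.a₁ = W.a₁)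
    (h2 : W'.a₂ = W.a₂) (h3 : W'.a₃ = W.a₃) (h4 : (6 : ℤ) ∣ W'.a₄ - W.a₄)
    (h6 : (6 : ℤ) ∣ W'.a₆ - W.a₆) (ℓ : ℕ) (hℓ : ℓ ∣ 6) :
    W'.reductionMod ℓ = W.reductionMod ℓ := by
  have hℓ' : (ℓ : ℤ) ∣ 6 := by exact_mod_cast hℓ
  have e4 : ((W'.a₄ : ℤ) : ZMod ℓ) = (W.a₄ : ZMod ℓ) :=
    (ZMod.intCast_eq_intCast_iff_dvd_sub _ _ _).mpr (by
      have := hℓ'.trans h4
      rwa [← neg_sub, dvd_neg] at this)
  have e6 : ((W'.a₆ : ℤ) : ZMod ℓ) = (W.a₆ : ZMod ℓ) :=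
    (ZMod.intCast_eq_intCast_iff_dvd_sub _ _ _).mpr (by
      have := hℓ'.trans h6
      rwa [← neg_sub, dvd_neg] at this)
  unfold WeierstrassCurve.reductionMod
  ext <;> simp [h1, h2, h3, e4, e6]

theorem apOfModel_eq_of_congr {W W' : WeierstrassCurve ℤ} (h1 : W'.a₁ = W.a₁)
    (h2 : W'.a₂ = W.a₂) (h3 : W'.a₃ = W.a₃) (h4 : (6 : ℤ) ∣ W'.a₄ - W.a₄)
    (h6 : (6 : ℤ) ∣ W'.a₆ - W.a₆) (ℓ : ℕ) (hℓ : ℓ ∣ 6) :
    W'.apOfModel ℓ = W.apOfModel ℓ := by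
  unfold WeierstrassCurve.apOfModel
  rw [reductionMod_eq_of_congr h1 h2 h3 h4 h6 ℓ hℓ]

/-! ## Semistability from congruences -/

/-- If `c₄, c₆` change by multiples of `1728 * M` then `Δ` changes by a multiple of `M`. -/
theorem dvd_Δ_sub_of_dvd (W W' : WeierstrassCurve ℤ) (M : ℤ)
    (h4 : 1728 * M ∣ W'.c₄ - W.c₄) (h6 : 1728 * M ∣ W'.c₆ - W.c₆) : M ∣ W'.Δ - W.Δ := by
  obtain ⟨m4, hm4⟩ := h4
  obtain ⟨m6, hm6⟩ := h6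
  have r := W.c_relation
  have r' := W'.c_relation
  have e4 : W'.c₄ = W.c₄ + 1728 * M * m4 := by linarith
  have e6 : W'.c₆ = W.c₆ + 1728 * M * m6 := by linarith
  rw [e4, e6] at r'
  refine ⟨m4 * (3 * W.c₄ ^ 2 + 3 * W.c₄ * (1728 * M * m4) + (1728 * M * m4) ^ 2)
    - m6 * (2 * W.c₆ + 1728 * M * m6), ?_⟩
  have : (1728 : ℤ) * (W'.Δ - W.Δ) = 1728 * (M * (m4 * (3 * W.c₄ ^ 2 + 3 * W.c₄ * (1728 * M * m4)
      + (1728 * M * m4) ^ 2) - m6 * (2 * W.c₆ + 1728 * M * m6))) := by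
    rw [mul_sub, r', r]; ring
  exact mul_left_cancel₀ (by norm_num) this

theorem exists_model_of (W : WeierstrassCurve ℤ) (hΔ : W.Δ ≠ 0) (hW : W.IsSemistableModel)
    (C4 C6 : ℤ) (h4 : 1728 * (60 * W.Δ) ∣ C4 - W.c₄) (h6 : 1728 * (60 * W.Δ) ∣ C6 - W.c₆)
    (hcop : ∀ p : ℕ, p.Prime → ¬ (p : ℤ) ∣ 30 * W.Δ → (p : ℤ) ∣ C4 → (p : ℤ) ∣ C6 → False) :
    ∃ W' : WeierstrassCurve ℤ, W'.a₁ = W.a₁ ∧ W'.a₂ = W.a₂ ∧ W'.a₃ = W.a₃ ∧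
      (6 : ℤ) ∣ W'.a₄ - W.a₄ ∧ (6 : ℤ) ∣ W'.a₆ - W.a₆ ∧ W'.c₄ = C4 ∧ W'.c₆ = C6 ∧
      W'.Δ ≠ 0 ∧ W'.IsSemistableModel := by
  have d4 : (10368 : ℤ) ∣ C4 - W.c₄ := Dvd.dvd.trans ⟨10 * W.Δ, by ring⟩ h4
  have d6 : (10368 : ℤ) ∣ C6 - W.c₆ := Dvd.dvd.trans ⟨10 * W.Δ, by ring⟩ h6
  obtain ⟨W', h1, h2, h3, h4', h6', hc4, hc6⟩ := exists_curve_of_c W C4 C6 d4 d6
  have hΔΔ : 60 * W.Δ ∣ W'.Δ - W.Δ :=
    dvd_Δ_sub_of_dvd W W' (60 * W.Δ) (hc4 ▸ h4) (hc6 ▸ h6)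
  have hc4' : 60 * W.Δ ∣ W'.c₄ - W.c₄ := Dvd.dvd.trans ⟨1728, by ring⟩ (hc4 ▸ h4)
  have hΔ' : W'.Δ ≠ 0 := by
    intro h0
    rw [h0, zero_sub, dvd_neg] at hΔΔ
    obtain ⟨t, ht⟩ := hΔΔ
    have h1 : W.Δ * (1 - 60 * t) = 0 := by linarith
    rcases mul_eq_zero.mp h1 with h | h
    · exact hΔ h
    · omega
  refine ⟨W', h1, h2, h3, h4', h6', hc4, hc6, hΔ', ?_⟩
  intro p hp hpΔ' hpc4
  by_cases hp30 : (p : ℤ) ∣ 30 * W.Δ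
  · -- congruence case
    have hp60 : (p : ℤ) ∣ 60 * W.Δ := Dvd.dvd.trans hp30 ⟨2, by ring⟩
    have hpΔ : (p : ℤ) ∣ W.Δ := by
      have := dvd_sub hpΔ' (hp60.trans hΔΔ)
      simpa using this
    have hpc : (p : ℤ) ∣ W.c₄ := by
      have := dvd_sub hpc4 (hp60.trans hc4')
      simpa using this
    exact hW p hp hpΔ hpc
  · -- coprime case
    have hpP : Prime (p : ℤ) := Nat.prime_iff_prime_int.mp hp
    have hp6 : (p : ℤ) ∣ W'.c₆ := by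
      have r' := W'.c_relation
      have : (p : ℤ) ∣ W'.c₆ ^ 2 := by
        have e : W'.c₆ ^ 2 = W'.c₄ ^ 3 - 1728 * W'.Δ := by linarith
        rw [e]
        exact dvd_sub (dvd_pow hpc4 (by norm_num)) (Dvd.dvd.mul_left hpΔ' _)
      exact hpP.dvd_of_dvd_pow this
    exact hcop p hp hp30 (hc4 ▸ hpc4) (hc6 ▸ hp6)

end Fermat.Agent.S52.Model
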